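/-
MAZUR (Track M), package (P-w) (helper5), part 1: **Hilbert 90 for subgroups of `G_ℚ`**.

A multiplicative 1-cocycle `u : H → ℚ̄ˣ` on a subgroup `H ≤ G_ℚ` (e.g. an inertia group), equal to `1`
near the identity, is a coboundary: `u g = g γ / γ` for `g ∈ H` (`mzqw_hilbert90`).  Same Poincaré
series as `mzs_hilbert90`, summed over the embeddings of a finite subextension induced by `H`.
-/
import Fermat.Agent.Lib.Mazur.Sel.H90

set_option autoImplicit false
set_option linter.unusedSectionVars false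
set_option linter.style.haveILetI false

namespace Fermat.Agent.Mazur

local notation "Qb" => AlgebraicClosure ℚ
local notation "GQ" => (AlgebraicClosure ℚ ≃ₐ[ℚ] AlgebraicClosure ℚ)

/-- **Hilbert 90 on a subgroup of `G_ℚ`** -/
theorem mzqw_hilbert90 (H : Subgroup GQ) (u : GQ → Qb) (hu0 : ∀ g ∈ H, u g ≠ 0)
    (hopen : {g : GQ | u g = 1} ∈ nhds (1 : GQ))
    (hcoc : ∀ g ∈ H, ∀ h ∈ H, u (g * h) = u g * g (u h)) :
    ∃ γ : Qb, γ ≠ 0 ∧ ∀ g ∈ H, u g = g γ / γ := by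
  classical
  obtain ⟨E, hEfin, hE⟩ := (krullTopology_mem_nhds_one_iff ℚ Qb _).mp hopen
  haveI := hEfin
  let res : GQ → (↥E →ₐ[ℚ] Qb) := fun τ => (τ : Qb →ₐ[ℚ] Qb).comp E.val
  have hres : ∀ (τ : GQ) (x : ↥E), res τ x = τ (x : Qb) := fun τ x => rfl
  -- `u` only depends on the restriction to `E`
  have hkey : ∀ τ ∈ H, ∀ τ' ∈ H, res τ = res τ' → u τ = u τ' := by
    intro τ hτ τ' hτ' h
    have hn : τ'⁻¹ * τ ∈ E.fixingSubgroup := by
      rw [IntermediateField.mem_fixingSubgroup_iff]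
      intro x hx
      have h1 : τ x = τ' x := by
        have := DFunLike.congr_fun h (⟨x, hx⟩ : ↥E)
        simpa [hres] using this
      show (τ'⁻¹ * τ) x = x
      rw [AlgEquiv.mul_apply, h1]
      exact τ'.symm_apply_apply x
    have h1 : u (τ'⁻¹ * τ) = 1 := hE hn
    have h2 : τ = τ' * (τ'⁻¹ * τ) := by group
    rw [h2, hcoc τ' hτ' _ (H.mul_mem (H.inv_mem hτ') hτ), h1, map_one, mul_one]
  -- the embeddings induced by `H`
  let Φ := {φ : ↥E →ₐ[ℚ] Qb // ∃ τ ∈ H, res τ = φ}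
  have hΦ : ∀ φ : Φ, ∃ τ ∈ H, res τ = φ.1 := fun φ => φ.2
  choose lift hliftH hreslift using hΦ
  let ut : Φ → Qb := fun φ => u (lift φ)
  have hut : ∀ (τ : GQ) (hτ : τ ∈ H), u τ = ut ⟨res τ, τ, hτ, rfl⟩ := fun τ hτ =>
    hkey _ hτ _ (hliftH _) (hreslift (⟨res τ, τ, hτ, rfl⟩ : Φ)).symm
  have hut0 : ∀ φ : Φ, ut φ ≠ 0 := fun φ => hu0 _ (hliftH φ)
  -- Dedekind independence
  have hli : LinearIndependent Qb (fun φ : Φ => ((φ.1 : ↥E →* Qb) : ↥E → Qb)) := by
    refine (linearIndependent_monoidHom ↥E Qb).comp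
      (fun φ : Φ => ((φ.1 : ↥E →+* Qb) : ↥E →* Qb)) ?_
    intro φ ψ h
    apply Subtype.ext
    ext x
    exact DFunLike.congr_fun h x
  haveI : Finite Φ := Subtype.finite
  haveI : Fintype Φ := Fintype.ofFinite _
  obtain ⟨θ, hθ⟩ : ∃ θ : ↥E, ∑ φ : Φ, ut φ * φ.1 θ ≠ 0 := by
    by_contra hcon
    rw [not_exists] at hcon
    simp only [not_not] at hcon
    have hzero : ∑ φ : Φ, ut φ • ((φ.1 : ↥E →* Qb) : ↥E → Qb) = 0 := by
      funext θ
      rw [Finset.sum_apply, Pi.zero_apply, ← hcon θ]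
      rfl
    have h0 := (Fintype.linearIndependent_iff.mp hli) ut hzero ⟨res 1, 1, H.one_mem, rfl⟩
    exact hut0 _ h0
  set b : Qb := ∑ φ : Φ, ut φ * φ.1 θ with hb
  have hact : ∀ g ∈ H, u g * g b = b := by
    intro g hg
    let eg : Φ ≃ Φ :=
      { toFun := fun φ => ⟨(g : Qb →ₐ[ℚ] Qb).comp φ.1, g * lift φ, H.mul_mem hg (hliftH φ), by
          ext x
          rw [hres]
          show g (lift φ (x : Qb)) = g (φ.1 x)
          rw [← hres, hreslift]⟩
        invFun := fun φ => ⟨((g⁻¹ : GQ) : Qb →ₐ[ℚ] Qb).comp φ.1, g⁻¹ * lift φ,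
          H.mul_mem (H.inv_mem hg) (hliftH φ), by
          ext x
          rw [hres]
          show (g⁻¹ : GQ) (lift φ (x : Qb)) = (g⁻¹ : GQ) (φ.1 x)
          rw [← hres, hreslift]⟩
        left_inv := by
          intro φ
          apply Subtype.ext
          ext x
          show (g⁻¹ : GQ) (g (φ.1 x)) = φ.1 x
          rw [← AlgEquiv.mul_apply, inv_mul_cancel, AlgEquiv.one_apply]
        right_inv := by
          intro φ
          apply Subtype.ext
          ext x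
          show g ((g⁻¹ : GQ) (φ.1 x)) = φ.1 x
          rw [← AlgEquiv.mul_apply, mul_inv_cancel, AlgEquiv.one_apply] }
    have h1 : ∀ φ : Φ, ut (eg φ) = u g * g (ut φ) := by
      intro φ
      have h2 : (⟨res (g * lift φ), g * lift φ, H.mul_mem hg (hliftH φ), rfl⟩ : Φ) = eg φ := by
        apply Subtype.ext
        ext x
        show g (lift φ (x : Qb)) = g (φ.1 x)
        rw [← hres, hreslift]
      rw [← h2, ← hut _ (H.mul_mem hg (hliftH φ)), hcoc g hg _ (hliftH φ)]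
    have h3 : ∑ φ : Φ, ut φ * φ.1 θ = ∑ φ : Φ, ut (eg φ) * (eg φ).1 θ :=
      (Equiv.sum_comp eg (fun ψ : Φ => ut ψ * ψ.1 θ)).symm
    rw [hb, map_sum, Finset.mul_sum, h3]
    refine Finset.sum_congr rfl fun φ _ => ?_
    rw [h1, map_mul]
    show u g * (g (ut φ) * g (φ.1 θ)) = u g * g (ut φ) * g (φ.1 θ)
    ring
  refine ⟨b⁻¹, inv_ne_zero hθ, fun g hg => ?_⟩
  have hgb : g b ≠ 0 := (map_ne_zero_iff g g.injective).mpr hθ
  rw [map_inv₀, inv_div_inv, eq_div_iff hgb]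
  exact hact g hg

end Fermat.Agent.Mazur
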