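/-
MAZUR (Track M), package (P-w) (helper5), part 2: **the valuation of Kummer classes at `𝔓`**.

`O : MzsObj 𝔭 𝔓 X` a concrete object, `c : G_ℚ → X` a locally constant cocycle with `c(I_𝔓) ⊆ X0`.
For every character `χ` of `X`, `χ ∘ c` restricted to `I_𝔓` is a `μ`-valued cocycle, hence a Kummer
cocycle `i ↦ i β / β` (`mzqw_exists_kummer`; Hilbert 90 on `I_𝔓`); its "valuation" `v(β) mod ℤ` is
invariant under the twist `χ ↦ φ χ := φ ∘ χ ∘ φ⁻¹` by any `φ ∈ D_𝔓`: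

  `mzqw_twist_div` : `(φ χ / χ) ∘ c` is the Kummer cocycle of a `𝔓`-UNIT.

Consequently (`mzqw_main`): if `P ^ a` kills the `φ`-coinvariants of the character group of `X0`, then
`χ ∘ (P ^ a • c)` is unit-Kummer for every `χ`.
-/
import Fermat.Agent.Lib.Mazur.Sel.Obj
import Fermat.Agent.Lib.Mazur.LocP.W.H90
import Fermat.Agent.Lib.TW.Flat.Stable

set_option autoImplicit false
set_option linter.unusedSectionVars false
set_option linter.style.haveILetI false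

namespace Fermat.Agent.Mazur

open Fermat.Agent.TW Fermat.Agent.S05Lib

local notation "Qb" => AlgebraicClosure ℚ
local notation "GQ" => (AlgebraicClosure ℚ ≃ₐ[ℚ] AlgebraicClosure ℚ)

variable {𝔭 𝔓 : FFPlace} {X : Type*} [AddCommGroup X] [DistribMulAction GQ X]

/-- characters are equivariant for the inertia group at `𝔓` on the connected part -/
theorem mzqw_equivariant [Finite X] (O : MzsObj 𝔭 𝔓 X) (χ : AddChar X Qb) {i : GQ} (hi : i ∈ 𝔓.I)
    {x : X} (hx : x ∈ O.X0) : χ (i • x) = i (χ x) := by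
  obtain ⟨e, he1, he2⟩ := O.cyc i hi
  rw [he1 x hx, AddChar.map_nsmul_eq_pow]
  refine (he2 _ ?_).symm
  rw [← AddChar.map_nsmul_eq_pow, card_nsmul_eq_zero', AddChar.map_zero_eq_one]

theorem mzqw_addChar_ne_zero (χ : AddChar X Qb) (x : X) : χ x ≠ 0 := by
  intro h
  have h1 : χ x * χ (-x) = 1 := by
    rw [← AddChar.map_add_eq_mul, add_neg_cancel, AddChar.map_zero_eq_one]
  rw [h, zero_mul] at h1
  exact zero_ne_one h1

/-- **Kummer generators on the inertia group at `𝔓`** -/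
theorem mzqw_exists_kummer [Finite X] (O : MzsObj 𝔭 𝔓 X) (c : GQ → X) (hlc : IsLocallyConstant c)
    (hcoc : MzsCocycle c) (hord : ∀ i ∈ 𝔓.I, c i ∈ O.X0) (χ : AddChar X Qb) :
    ∃ β : Qb, β ≠ 0 ∧ ∀ i ∈ 𝔓.I, χ (c i) = i β / β := by
  refine mzqw_hilbert90 𝔓.I (fun g => χ (c g)) (fun g _ => mzqw_addChar_ne_zero χ _) ?_ ?_
  · refine Filter.mem_of_superset ((hlc.isOpen_fiber (c 1)).mem_nhds rfl) ?_
    intro g hg
    have hg' : c g = c 1 := hg
    show χ (c g) = 1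
    rw [hg', hcoc.map_one, AddChar.map_zero_eq_one]
  · intro g hg h hh
    show χ (c (g * h)) = χ (c g) * g (χ (c h))
    rw [hcoc g h, AddChar.map_add_eq_mul, mzqw_equivariant O χ hg (hord h hh)]

/-- **invariance of the valuation of Kummer classes under the decomposition group** -/
theorem mzqw_twist_div [Finite X] (O : MzsObj 𝔭 𝔓 X) (c : GQ → X) (hlc : IsLocallyConstant c)
    (hcoc : MzsCocycle c) (hord : ∀ i ∈ 𝔓.I, c i ∈ O.X0) {φ : GQ} (hφ : φ ∈ 𝔓.D)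
    (χ : AddChar X Qb) : MzsUnitKummer 𝔓 (fun g => φ (χ (φ⁻¹ • c g)) / χ (c g)) := by
  obtain ⟨β, hβ0, hβ⟩ := mzqw_exists_kummer O c hlc hcoc hord χ
  set m : X := φ⁻¹ • c φ with hm
  obtain ⟨βm, hβm, hβmu⟩ := O.peu m χ
  have hβm0 : βm ≠ 0 := hβm.1
  refine ⟨φ (β / βm) / β, ?_, fun i hi => ?_⟩
  · have h1 : 𝔓.v.Is (β / βm) (𝔓.v.ord β - 0) := (𝔓.v.is_ord hβ0).div hβm
    have h2 := (𝔓.is_D hφ h1).div (𝔓.v.is_ord hβ0)
    simpa using h2
  · -- the conjugate `i' = φ⁻¹ i φ`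
    have hi' : φ⁻¹ * i * φ ∈ 𝔓.I := 𝔓.conj_mem_I' hφ hi
    set i' : GQ := φ⁻¹ * i * φ with hi'def
    -- the cocycle relation for the conjugate
    have hconj : φ⁻¹ • c i = c i' - (i' • m - m) := by
      have h1 : c i' = c φ⁻¹ + φ⁻¹ • (c i + i • c φ) := by
        rw [hi'def, mul_assoc, hcoc φ⁻¹ (i * φ), hcoc i φ]
      have h2 : c φ⁻¹ = -(φ⁻¹ • c φ) := by
        have h3 := hcoc φ⁻¹ φ
        rw [inv_mul_cancel, hcoc.map_one] at h3
        exact eq_neg_of_add_eq_zero_left h3.symm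
      have h4 : i' • m = φ⁻¹ • i • c φ := by
        rw [hm, hi'def, ← mul_smul, ← mul_smul]
        congr 1
        group
      rw [h1, h2, h4, smul_add, hm]
      abel
    have hxi' : χ (c i') = i' β / β := hβ i' hi'
    have hmi' : χ (i' • m - m) = i' βm / βm := hβmu i' hi'
    have hφi' : ∀ y : Qb, φ (i' y) = i (φ y) := by
      intro y
      rw [hi'def]
      show φ ((φ⁻¹ * i * φ) y) = i (φ y)
      rw [AlgEquiv.mul_apply, AlgEquiv.mul_apply, ← AlgEquiv.mul_apply φ φ⁻¹, mul_inv_cancel,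
        AlgEquiv.one_apply]
    show φ (χ (φ⁻¹ • c i)) / χ (c i) = i (φ (β / βm) / β) / (φ (β / βm) / β)
    rw [hconj, AddChar.map_sub_eq_div, hxi', hmi', hβ i hi]
    have hiβ0 : i β ≠ 0 := (map_ne_zero_iff i i.injective).mpr hβ0
    have hi'β0 : i' β ≠ 0 := (map_ne_zero_iff i' i'.injective).mpr hβ0
    have hi'βm0 : i' βm ≠ 0 := (map_ne_zero_iff i' i'.injective).mpr hβm0
    have hφβ0 : φ β ≠ 0 := (map_ne_zero_iff φ φ.injective).mpr hβ0
    have hφβm0 : φ βm ≠ 0 := (map_ne_zero_iff φ φ.injective).mpr hβm0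
    have hiφβ0 : i (φ β) ≠ 0 := (map_ne_zero_iff i i.injective).mpr hφβ0
    have hiφβm0 : i (φ βm) ≠ 0 := (map_ne_zero_iff i i.injective).mpr hφβm0
    simp only [map_div₀, hφi']
    field_simp

/-- **(P-w), abstract core**: if `P ^ a` kills the `φ`-coinvariants of the character group of `X0`
(for one `φ ∈ D_𝔓`), then for every cocycle `c` with `c(I_𝔓) ⊆ X0` the classes `χ ∘ (P ^ a • c)` are
Kummer classes of `𝔓`-units -/
theorem mzqw_main [Finite X] (O : MzsObj 𝔭 𝔓 X) {φ : GQ} (hφ : φ ∈ 𝔓.D) (a : ℕ)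
    (hNw : ∀ χ : AddChar X Qb, ∃ χ' : AddChar X Qb, ∀ x ∈ O.X0,
      χ x ^ (𝔓.p ^ a) = φ (χ' (φ⁻¹ • x)) / χ' x)
    (c : GQ → X) (hlc : IsLocallyConstant c) (hcoc : MzsCocycle c)
    (hord : ∀ i ∈ 𝔓.I, c i ∈ O.X0) (χ : AddChar X Qb) :
    MzsUnitKummer 𝔓 (fun g => χ ((𝔓.p ^ a) • c g)) := by
  obtain ⟨χ', hχ'⟩ := hNw χ
  refine (mzqw_twist_div O c hlc hcoc hord hφ χ').congr (fun i hi => ?_)
  show χ ((𝔓.p ^ a) • c i) = φ (χ' (φ⁻¹ • c i)) / χ' (c i)
  rw [AddChar.map_nsmul_eq_pow]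
  exact hχ' _ (hord i hi)

end Fermat.Agent.Mazur
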