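/-
MAZUR (Track M), package (P-w) (helper5), part 3: **from a count of invariants to the exponent of the
coinvariants**.

* `mzqw_pow_mem_range` : an endomorphism `T` of a finite commutative `P`-group with `#ker T ≤ P ^ a`
  has `g ^ (P ^ a) ∈ range T` for all `g`;
* `mzqw_finite_addChar` : the character group of a finite abelian group (values in `ℚ̄`) is finite;
* `mzqw_exponent_of_card` : the hypothesis `hNw` of `mzqw_main` from a bound on the number of
  `φ`-equivariant characters of `X0`.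
-/
import Fermat.Agent.Lib.Mazur.LocP.W.Core

set_option autoImplicit false
set_option linter.unusedSectionVars false
set_option linter.style.haveILetI false

namespace Fermat.Agent.Mazur

open Fermat.Agent.TW Fermat.Agent.S05Lib

local notation "Qb" => AlgebraicClosure ℚ
local notation "GQ" => (AlgebraicClosure ℚ ≃ₐ[ℚ] AlgebraicClosure ℚ)

/-- an endomorphism of a finite commutative `P`-group with small kernel has a cokernel of small
exponent -/
theorem mzqw_pow_mem_range {G : Type*} [CommGroup G] [Finite G] {P : ℕ} [hP : Fact P.Prime]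
    (hG : IsPGroup P G) (T : G →* G) (a : ℕ) (hker : Nat.card T.ker ≤ P ^ a) (g : G) :
    g ^ (P ^ a) ∈ T.range := by
  obtain ⟨j, hj⟩ := hG.index T.range
  -- `index (range T) = #ker T`
  have h1 : Nat.card G = Nat.card T.ker * Nat.card T.range := by
    rw [← Nat.card_congr (QuotientGroup.quotientKerEquivRange T).toEquiv, mul_comm]
    exact Subgroup.card_eq_card_quotient_mul_card_subgroup T.ker
  have h2 : T.range.index * Nat.card T.range = Nat.card G := T.range.index_mul_card
  have h3 : T.range.index = Nat.card T.ker := by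
    have hpos : 0 < Nat.card T.range := Nat.card_pos
    apply Nat.eq_of_mul_eq_mul_right hpos
    rw [h2, h1]
  have hja : j ≤ a := by
    have : P ^ j ≤ P ^ a := by rw [← hj, h3]; exact hker
    exact (Nat.pow_le_pow_iff_right hP.out.one_lt).mp this
  have h4 : g ^ (P ^ j) ∈ T.range := by
    rw [← hj]
    exact T.range.pow_index_mem g
  obtain ⟨d, rfl⟩ := Nat.exists_eq_add_of_le hja
  rw [pow_add, pow_mul]
  exact T.range.pow_mem h4 _

/-- the character group of a finite abelian group is finite -/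
theorem mzqw_finite_addChar (Y : Type*) [AddCommGroup Y] [Finite Y] : Finite (AddChar Y Qb) := by
  classical
  set n := Nat.card Y with hn
  have hnpos : 0 < n := Nat.card_pos
  let S := Polynomial.nthRootsFinset n (1 : Qb)
  let f : AddChar Y Qb → (Y → ↥S) := fun ψ y =>
    ⟨ψ y, (Polynomial.mem_nthRootsFinset hnpos 1).mpr (by
      rw [← AddChar.map_nsmul_eq_pow, hn, card_nsmul_eq_zero', AddChar.map_zero_eq_one])⟩
  have hf : Function.Injective f := by
    intro ψ ψ' h
    ext y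
    exact congrArg Subtype.val (congrFun h y)
  exact Finite.of_injective f hf

variable {𝔭 𝔓 : FFPlace} {X : Type*} [AddCommGroup X] [DistribMulAction GQ X]

/-- **from the count of `φ`-equivariant characters of `X0` to the hypothesis of `mzqw_main`** -/
theorem mzqw_exponent_of_card [Finite X] (O : MzsObj 𝔭 𝔓 X) {φ : GQ}
    (hφX0 : ∀ x ∈ O.X0, φ • x ∈ O.X0) (hP : ∃ k, Nat.card ↥O.X0 = 𝔓.p ^ k) (a : ℕ)
    (hcount : Nat.card {ψ : AddChar ↥O.X0 Qb //
      ∀ x : ↥O.X0, ψ ⟨φ • (x : X), hφX0 x x.2⟩ = φ (ψ x)} ≤ 𝔓.p ^ a) :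
    ∀ χ : AddChar X Qb, ∃ χ' : AddChar X Qb, ∀ x ∈ O.X0,
      χ x ^ (𝔓.p ^ a) = φ (χ' (φ⁻¹ • x)) / χ' x := by
  classical
  haveI : Fact 𝔓.p.Prime := ⟨𝔓.hp⟩
  haveI := mzqw_finite_addChar ↥O.X0
  -- `φ⁻¹` preserves `X0` (finiteness)
  have hφinv : ∀ x ∈ O.X0, φ⁻¹ • x ∈ O.X0 := by
    let s : ↥O.X0 → ↥O.X0 := fun x => ⟨φ • (x : X), hφX0 x x.2⟩
    have hs : Function.Injective s := by
      intro x y h
      have h1 : φ • (x : X) = φ • (y : X) := congrArg Subtype.val h
      exact Subtype.ext (smul_left_cancel φ h1)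
    intro x hx
    obtain ⟨y, hy⟩ := (Finite.injective_iff_surjective.mp hs) ⟨x, hx⟩
    have h1 : φ • (y : X) = x := congrArg Subtype.val hy
    rw [← h1, inv_smul_smul]
    exact y.2
  -- the twist as an endomorphism of the character group
  let tw : AddChar ↥O.X0 Qb →* AddChar ↥O.X0 Qb :=
    { toFun := fun ψ =>
        { toFun := fun x => φ (ψ ⟨φ⁻¹ • (x : X), hφinv x x.2⟩)
          map_zero_eq_one' := by
            have : (⟨φ⁻¹ • ((0 : ↥O.X0) : X), hφinv _ (0 : ↥O.X0).2⟩ : ↥O.X0) = 0 :=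
              Subtype.ext (smul_zero _)
            rw [this, AddChar.map_zero_eq_one, map_one]
          map_add_eq_mul' := by
            intro x y
            have : (⟨φ⁻¹ • ((x + y : ↥O.X0) : X), hφinv _ (x + y).2⟩ : ↥O.X0) =
                ⟨φ⁻¹ • (x : X), hφinv x x.2⟩ + ⟨φ⁻¹ • (y : X), hφinv y y.2⟩ :=
              Subtype.ext (smul_add _ _ _)
            rw [this, AddChar.map_add_eq_mul, map_mul] }
      map_one' := by
        ext x
        show φ ((1 : AddChar ↥O.X0 Qb) _) = (1 : AddChar ↥O.X0 Qb) x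
        rw [AddChar.one_apply, AddChar.one_apply, map_one]
      map_mul' := by
        intro ψ ψ'
        ext x
        show φ ((ψ * ψ') _) = _
        rw [AddChar.mul_apply, map_mul]
        rfl }
  have htw : ∀ (ψ : AddChar ↥O.X0 Qb) (x : ↥O.X0),
      tw ψ x = φ (ψ ⟨φ⁻¹ • (x : X), hφinv x x.2⟩) := fun ψ x => rfl
  let T : AddChar ↥O.X0 Qb →* AddChar ↥O.X0 Qb :=
    { toFun := fun ψ => tw ψ / ψ
      map_one' := by rw [map_one, div_one]
      map_mul' := by
        intro ψ ψ'
        rw [map_mul, mul_div_mul_comm] }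
  have hT : ∀ ψ, T ψ = tw ψ / ψ := fun ψ => rfl
  -- the kernel of `T` consists of the equivariant characters
  have hker : Nat.card T.ker ≤ 𝔓.p ^ a := by
    refine le_trans (Nat.card_le_card_of_injective
      (fun ψ : T.ker => (⟨ψ.1, fun x => ?_⟩ : {ψ : AddChar ↥O.X0 Qb //
        ∀ x : ↥O.X0, ψ ⟨φ • (x : X), hφX0 x x.2⟩ = φ (ψ x)})) ?_) hcount
    · have h1 : T ψ.1 = 1 := ψ.2
      rw [hT, div_eq_one] at h1
      have h2 := DFunLike.congr_fun h1 (⟨φ • (x : X), hφX0 x x.2⟩ : ↥O.X0)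
      rw [htw] at h2
      rw [← h2]
      congr 2
      exact Subtype.ext (inv_smul_smul φ (x : X))
    · intro ψ ψ' h
      have h1 : (ψ : AddChar ↥O.X0 Qb) = (ψ' : AddChar ↥O.X0 Qb) := Subtype.mk.inj h
      exact Subtype.ext h1
  -- the character group is a `P`-group
  have hG : IsPGroup 𝔓.p (AddChar ↥O.X0 Qb) := by
    obtain ⟨k, hk⟩ := hP
    intro ψ
    refine ⟨k, ?_⟩
    ext x
    rw [AddChar.pow_apply, ← AddChar.map_nsmul_eq_pow, ← hk, card_nsmul_eq_zero',
      AddChar.map_zero_eq_one, AddChar.one_apply]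
  intro χ
  obtain ⟨ψ', hψ'⟩ := mzqw_pow_mem_range hG T a hker (χ.compAddMonoidHom O.X0.subtype)
  obtain ⟨χ', hχ'⟩ := mzs_addChar_extend O.X0 ψ'
  refine ⟨χ', fun x hx => ?_⟩
  have h1 := DFunLike.congr_fun hψ' (⟨x, hx⟩ : ↥O.X0)
  rw [hT, AddChar.div_apply', htw, AddChar.pow_apply] at h1
  have h2 : (χ.compAddMonoidHom O.X0.subtype) (⟨x, hx⟩ : ↥O.X0) = χ x := rfl
  rw [h2] at h1
  rw [← h1, ← hχ' ⟨x, hx⟩, ← hχ' ⟨φ⁻¹ • x, hφinv x hx⟩]

end Fermat.Agent.Mazur
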